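import Mathlib

/-!
# S14 / auxiliary cyclotomic extension, part 2: ramification above `r` in `K(ζ_r)/K`

`K` a number field in which the prime `r` is unramified, `Ω = K(ζ_r)`.  Then `Ω/K` is totally
ramified at every prime above `r`: the inertia group of every prime of `Ω` above `r` is the whole
`Gal(Ω/K)`, which has order `r - 1` (`ae_inertia_eq_top`).
-/

open NumberField Polynomial

namespace Fermat.Agent.S14

set_option linter.style.haveILetI false
set_option linter.unusedSectionVars false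

open scoped Pointwise

section Ram

variable {K Ω : Type*} [Field K] [NumberField K] [Field Ω] [NumberField Ω] [Algebra K Ω]
  {r : ℕ} [hr : Fact r.Prime]

/-- A prime of `𝓞 Ω` containing `r` contains `ζ - 1`. -/
theorem ae_zeta_sub_one_mem {ζ : Ω} (hζ : IsPrimitiveRoot ζ r) (P : Ideal (𝓞 Ω)) [hP : P.IsPrime]
    (hrP : (r : 𝓞 Ω) ∈ P) : hζ.toInteger - 1 ∈ P := by
  obtain ⟨u, hu⟩ := IsCyclotomicExtension.Rat.associated_zeta_sub_one_pow_prime r hζ
  have : (hζ.toInteger - 1) ^ (r - 1) ∈ P := by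
    have h1 : (hζ.toInteger - 1) ^ (r - 1) = (r : 𝓞 Ω) * ((u⁻¹ : (𝓞 Ω)ˣ) : 𝓞 Ω) := by
      rw [← hu, mul_assoc, Units.mul_inv, mul_one]
    rw [h1]
    exact P.mul_mem_right _ hrP
  exact hP.mem_of_pow_mem _ this

/-- A prime of `𝓞 Ω` containing `r` lies over `(r) ⊆ ℤ`. -/
theorem ae_liesOver_span (P : Ideal (𝓞 Ω)) [hP : P.IsPrime] (hrP : (r : 𝓞 Ω) ∈ P) :
    P.LiesOver (Ideal.span {(r : ℤ)}) := by
  constructor
  have hmax : (Ideal.span {(r : ℤ)}).IsMaximal :=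
    Int.ideal_span_isMaximal_of_prime r
  refine hmax.eq_of_le ?_ ?_
  · exact (Ideal.IsPrime.under ℤ P).ne_top
  · rw [Ideal.span_singleton_le_iff_mem, Ideal.under_def, Ideal.mem_comap]
    simpa using hrP

/-- A prime of `𝓞 Ω` containing `r` is nonzero. -/
theorem ae_ne_bot_of_mem (P : Ideal (𝓞 Ω)) (hrP : (r : 𝓞 Ω) ∈ P) : P ≠ ⊥ := by
  rintro rfl
  have hr0 : (r : 𝓞 Ω) ≠ 0 := by exact_mod_cast hr.out.ne_zero
  exact hr0 (by simpa using hrP)

/-- The ramification index over `ℤ` of a prime of `𝓞 Ω` containing `r` is at least `r - 1`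
when `Ω` contains a primitive `r`-th root of unity. -/
theorem ae_le_ramificationIdx {ζ : Ω} (hζ : IsPrimitiveRoot ζ r) (P : Ideal (𝓞 Ω)) [hP : P.IsPrime]
    (hrP : (r : 𝓞 Ω) ∈ P) : r - 1 ≤ P.ramificationIdx ℤ := by
  haveI := ae_liesOver_span P hrP
  have hmap : Ideal.map (algebraMap ℤ (𝓞 Ω)) (Ideal.span {(r : ℤ)}) =
      Ideal.span {hζ.toInteger - 1} ^ (r - 1) := by
    rw [Ideal.map_span, Set.image_singleton, Ideal.span_singleton_pow]
    have := IsCyclotomicExtension.Rat.associated_zeta_sub_one_pow_prime r hζ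
    rw [Ideal.span_singleton_eq_span_singleton.mpr this]
    simp
  have hr0 : (r : 𝓞 Ω) ≠ 0 := by
    exact_mod_cast hr.out.ne_zero
  have hne : Ideal.map (algebraMap ℤ (𝓞 Ω)) (Ideal.span {(r : ℤ)}) ≠ ⊥ := by
    rw [Ideal.map_span, Set.image_singleton]
    simpa using hr0
  rw [Ideal.IsDedekindDomain.ramificationIdx_eq_multiplicity (Ideal.span {(r : ℤ)}) P hne]
  have hP0 : P ≠ ⊥ := ae_ne_bot_of_mem P hrP
  apply FiniteMultiplicity.le_multiplicity_of_pow_dvd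
  · apply FiniteMultiplicity.of_prime_left
    · exact Ideal.prime_of_isPrime hP0 hP
    · exact hne
  · rw [hmap]
    apply pow_dvd_pow_of_dvd
    rw [Ideal.dvd_iff_le, Ideal.span_singleton_le_iff_mem]
    exact ae_zeta_sub_one_mem hζ P hrP

variable [IsCyclotomicExtension {r} K Ω]

/-- `Gal(K(ζ_r)/K)` has at most `r - 1` elements. -/
theorem ae_card_gal_le : Nat.card (Ω ≃ₐ[K] Ω) ≤ r - 1 := by
  obtain ⟨ζ, hζ⟩ := IsCyclotomicExtension.exists_isPrimitiveRoot K Ω (Set.mem_singleton r)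
    (NeZero.ne r)
  have h := Nat.card_le_card_of_injective _ (hζ.autToPow_injective K)
  rwa [Nat.card_eq_fintype_card (α := (ZMod r)ˣ), ZMod.card_units_eq_totient,
    Nat.totient_prime hr.out] at h

/-- If `r` is unramified in `K`, every element of `Gal(K(ζ_r)/K)` lies in the inertia group of
every prime of `K(ζ_r)` above `r`: the extension is totally ramified above `r`, of degree
`r - 1`. -/
theorem ae_inertia_eq_top [IsGalois K Ω]
    (hunr : ∀ Q : Ideal (𝓞 K), Q.IsPrime → (r : 𝓞 K) ∈ Q → Q.ramificationIdx ℤ = 1)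
    (P : Ideal (𝓞 Ω)) [hP : P.IsPrime] (hrP : (r : 𝓞 Ω) ∈ P) :
    P.inertia Gal(Ω/K) = ⊤ ∧ Nat.card Gal(Ω/K) = r - 1 := by
  obtain ⟨ζ, hζ⟩ := IsCyclotomicExtension.exists_isPrimitiveRoot K Ω (Set.mem_singleton r)
    (NeZero.ne r)
  have h1 := ae_le_ramificationIdx hζ P hrP
  have hQ : (r : 𝓞 K) ∈ P.under (𝓞 K) := by
    rw [Ideal.under_def, Ideal.mem_comap]
    simpa using hrP
  have h2 := Ideal.ramificationIdx_tower (R := ℤ) (P.under (𝓞 K)) P
  rw [hunr _ inferInstance hQ, one_mul] at h2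
  have h3 := Ideal.card_inertia_eq_ramificationIdxIn (G := Gal(Ω/K)) (P.under (𝓞 K)) P
  rw [Ideal.ramificationIdxIn_eq_ramificationIdx (P.under (𝓞 K)) P Gal(Ω/K), ← h2] at h3
  have h4 : Nat.card (P.inertia Gal(Ω/K)) ≤ Nat.card Gal(Ω/K) := Subgroup.card_le_card_group _
  have h5 := ae_card_gal_le (K := K) (Ω := Ω) (r := r)
  have h6 : Nat.card (P.inertia Gal(Ω/K)) = Nat.card Gal(Ω/K) := by omega
  exact ⟨Subgroup.eq_top_of_card_eq _ h6, by omega⟩

/-- Concrete form: every `σ ∈ Gal(K(ζ_r)/K)` acts trivially modulo every prime above `r`. -/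
theorem ae_smul_sub_mem_of_unram [IsGalois K Ω]
    (hunr : ∀ Q : Ideal (𝓞 K), Q.IsPrime → (r : 𝓞 K) ∈ Q → Q.ramificationIdx ℤ = 1)
    (P : Ideal (𝓞 Ω)) [hP : P.IsPrime] (hrP : (r : 𝓞 Ω) ∈ P) (σ : Gal(Ω/K)) (x : 𝓞 Ω) :
    σ • x - x ∈ P := by
  have h := (ae_inertia_eq_top hunr P hrP).1
  have : σ ∈ P.inertia Gal(Ω/K) := by rw [h]; exact Subgroup.mem_top σ
  exact this x

/-- There is a prime of `𝓞 Ω` containing `r`. -/
theorem ae_exists_prime_mem (Ω : Type*) [Field Ω] [NumberField Ω] (r : ℕ) [hr : Fact r.Prime] :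
    ∃ P : Ideal (𝓞 Ω), P.IsPrime ∧ (r : 𝓞 Ω) ∈ P := by
  haveI : (Ideal.span {(r : ℤ)}).IsPrime :=
    (Int.ideal_span_isMaximal_of_prime r).isPrime
  obtain ⟨⟨P, hP1, hP2⟩⟩ := (Ideal.span {(r : ℤ)}).nonempty_primesOver (S := 𝓞 Ω)
  refine ⟨P, hP1, ?_⟩
  have h1 : (r : ℤ) ∈ P.under ℤ := by
    rw [← hP2.over]
    exact Ideal.mem_span_singleton_self _
  rw [Ideal.under_def, Ideal.mem_comap] at h1
  simpa using h1

/-- The cyclotomic character of `K(ζ_r)/K` is bijective when `r` is unramified in `K`. -/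
theorem ae_autToPow_bijective [IsGalois K Ω]
    (hunr : ∀ Q : Ideal (𝓞 K), Q.IsPrime → (r : 𝓞 K) ∈ Q → Q.ramificationIdx ℤ = 1)
    {ζ : Ω} (hζ : IsPrimitiveRoot ζ r) : Function.Bijective (hζ.autToPow K) := by
  obtain ⟨P, hP1, hP2⟩ := ae_exists_prime_mem Ω r
  have hcard := (ae_inertia_eq_top hunr P hP2).2
  rw [Fintype.bijective_iff_injective_and_card]
  refine ⟨hζ.autToPow_injective K, ?_⟩
  rw [ZMod.card_units_eq_totient, Nat.totient_prime hr.out, ← hcard, Nat.card_eq_fintype_card]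

end Ram

end Fermat.Agent.S14
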