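import Mathlib

/-!
# S14 / auxiliary cyclotomic extension, part 1: `Ω = K(ζ_r)` over `F`

`F ⊆ K ⊆ Ω` fields, `K/F` finite normal, `Ω = K(ζ_r)` (`IsCyclotomicExtension {r} K Ω`).
Then `Ω/F` is normal (Galois in characteristic zero), and an element of `Gal(Ω/F)` is determined
by its restriction to `K` (`ae_rho`) and its action on `ζ_r` (`IsPrimitiveRoot.autToPow`);
in particular `Gal(Ω/F)` is commutative as soon as `Gal(K/F)` is.
-/

open Polynomial

namespace Fermat.Agent.S14

set_option linter.style.haveILetI false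
set_option linter.unusedSectionVars false

section Basic

variable {F K Ω : Type*} [Field F] [Field K] [Field Ω]
  [Algebra F K] [Algebra F Ω] [Algebra K Ω] [IsScalarTower F K Ω]
  (r : ℕ) [NeZero r]

/-- `Ω = K(ζ_r)` is normal over `F` when `K/F` is finite normal. -/
theorem ae_normal [FiniteDimensional F K] [Normal F K] [IsCyclotomicExtension {r} K Ω] :
    Normal F Ω := by
  obtain ⟨f, hf⟩ := Normal.exists_isSplittingField F K
  have hg0 : (X ^ r - 1 : F[X]) ≠ 0 := by
    simpa using X_pow_sub_C_ne_zero (NeZero.pos r) (1 : F)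
  haveI : IsSplittingField K Ω ((X ^ r - 1 : F[X]).map (algebraMap F K)) := by
    have := IsCyclotomicExtension.isSplittingField_X_pow_sub_one r K Ω
    simpa using this
  by_cases hf0 : f = 0
  · subst hf0
    haveI : IsSplittingField F K (1 : F[X]) := by
      have h := hf.adjoin_rootSet'
      constructor
      · simp
      · rw [← h]; simp [rootSet]
    haveI := IsSplittingField.mul (F := F) (K := K) (L := Ω) 1 (X ^ r - 1) one_ne_zero hg0
    exact Normal.of_isSplittingField ((1 : F[X]) * (X ^ r - 1))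
  haveI := IsSplittingField.mul (F := F) (K := K) (L := Ω) f (X ^ r - 1) hf0 hg0
  exact Normal.of_isSplittingField (f * (X ^ r - 1))

/-- `Ω = K(ζ_r)` is Galois over `F` (characteristic zero) when `K/F` is finite normal. -/
theorem ae_isGalois [CharZero F] [FiniteDimensional F K] [Normal F K]
    [IsCyclotomicExtension {r} K Ω] : IsGalois F Ω := by
  haveI := ae_normal (F := F) (K := K) (Ω := Ω) r
  haveI : Algebra.IsAlgebraic F Ω := Algebra.IsIntegral.isAlgebraic
  exact ⟨⟩

variable {r}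

/-- An `F`-automorphism of `Ω = K(ζ)` fixing `K` pointwise and `ζ` is the identity. -/
theorem ae_eq_one_of_fix [IsCyclotomicExtension {r} K Ω] {ζ : Ω} (hζ : IsPrimitiveRoot ζ r)
    (σ : Ω ≃ₐ[F] Ω) (hK : ∀ x : K, σ (algebraMap K Ω x) = algebraMap K Ω x) (hz : σ ζ = ζ) :
    σ = 1 := by
  let σK : Ω →ₐ[K] Ω := { (σ : Ω →+* Ω) with commutes' := hK }
  have h := IsCyclotomicExtension.adjoin_primitive_root_eq_top (A := K) (B := Ω) hζ
  have : σK = AlgHom.id K Ω := by
    apply AlgHom.ext_of_adjoin_eq_top h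
    intro x hx
    rw [Set.mem_singleton_iff] at hx
    subst hx
    exact hz
  ext x
  have := congrArg (fun f => f x) this
  exact this

/-- `ζ ^ (1 : ZMod r).val = ζ` for an `r`-th root of unity. -/
theorem ae_pow_val_one {ζ : Ω} (h : ζ ^ r = 1) : ζ ^ (1 : ZMod r).val = ζ := by
  rcases Nat.lt_or_ge 1 r with h1 | h1
  · haveI : Fact (1 < r) := ⟨h1⟩
    rw [ZMod.val_one, pow_one]
  · have : r = 1 := le_antisymm h1 (NeZero.pos r)
    subst this
    simp at h
    simp [h]

/-- Restriction to `K`. -/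
noncomputable def ae_rho (F K Ω : Type*) [Field F] [Field K] [Field Ω]
    [Algebra F K] [Algebra F Ω] [Algebra K Ω] [IsScalarTower F K Ω] [Normal F K] :
    (Ω ≃ₐ[F] Ω) →* (K ≃ₐ[F] K) := AlgEquiv.restrictNormalHom K

theorem ae_rho_commutes [Normal F K] (σ : Ω ≃ₐ[F] Ω) (x : K) :
    algebraMap K Ω (ae_rho F K Ω σ x) = σ (algebraMap K Ω x) :=
  AlgEquiv.restrictNormal_commutes σ K x

theorem ae_rho_surjective [Normal F K] [Normal F Ω] :
    Function.Surjective (ae_rho F K Ω) :=
  AlgEquiv.restrictNormalHom_surjective Ω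

/-- `ρ σ = 1` iff `σ` fixes `K` pointwise. -/
theorem ae_rho_eq_one_iff [Normal F K] (σ : Ω ≃ₐ[F] Ω) :
    ae_rho F K Ω σ = 1 ↔ ∀ x : K, σ (algebraMap K Ω x) = algebraMap K Ω x := by
  constructor
  · intro h x
    rw [← ae_rho_commutes, h]
    rfl
  · intro h
    ext x
    apply (algebraMap K Ω).injective
    rw [ae_rho_commutes, h]
    rfl

/-- The pair (restriction to `K`, cyclotomic character) is injective on `Gal(K(ζ_r)/F)`. -/
theorem ae_rho_kappa_injective [Normal F K] [IsCyclotomicExtension {r} K Ω] {ζ : Ω}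
    (hζ : IsPrimitiveRoot ζ r) {σ τ : Ω ≃ₐ[F] Ω} (h1 : ae_rho F K Ω σ = ae_rho F K Ω τ)
    (h2 : hζ.autToPow F σ = hζ.autToPow F τ) : σ = τ := by
  have key : σ * τ⁻¹ = 1 := by
    apply ae_eq_one_of_fix (K := K) hζ
    · rw [← ae_rho_eq_one_iff, map_mul, map_inv, h1, mul_inv_cancel]
    · have h3 : hζ.autToPow F (σ * τ⁻¹) = 1 := by rw [map_mul, map_inv, h2, mul_inv_cancel]
      have h4 := hζ.autToPow_spec F (σ * τ⁻¹)
      rw [h3] at h4
      rw [← h4]
      exact ae_pow_val_one hζ.pow_eq_one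
  exact mul_inv_eq_one.mp key

/-- `Gal(K(ζ_r)/F)` is commutative when `Gal(K/F)` is. -/
theorem ae_isMulCommutative [Normal F K] [IsCyclotomicExtension {r} K Ω]
    [IsMulCommutative (K ≃ₐ[F] K)] : IsMulCommutative (Ω ≃ₐ[F] Ω) := by
  obtain ⟨ζ, hζ⟩ := IsCyclotomicExtension.exists_isPrimitiveRoot K Ω (Set.mem_singleton r)
    (NeZero.ne r)
  refine ⟨⟨fun σ τ => ?_⟩⟩
  apply ae_rho_kappa_injective (K := K) hζ
  · rw [map_mul, map_mul, mul_comm']
  · rw [map_mul, map_mul, mul_comm]

end Basic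

end Fermat.Agent.S14
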