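import Fermat.Agent.S14.AuxExt.Ramification
import Fermat.Agent.S14.Artin.Frob

/-!
# S14 / auxiliary cyclotomic extension, part 3: total ramification and norms

`F ⊆ K ⊆ Ω = K(ζ_r)`, `r` unramified in `K`; `E` an intermediate field of `Ω/F`, Galois over `F`,
with `E ∩ K = F` (every `F`-automorphism of `E` is induced by a `K`-automorphism of `Ω`).
Then `Gal(E/F)` acts trivially modulo every prime of `E` above `r` (`ae_gal_smul_sub_mem`),
such primes have residue degree one over `F` (`ae_inertiaDeg_eq_one`), relative norms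
`N_{E/F} y` are `[E:F]`-th powers modulo the primes of `F` above `r` (`ae_intNorm_sub_pow_mem`),
and if `F/ℚ` is Galois with all primes above `r` of norm `r`, absolute norms of integers of `E`
are `[E:F]`-th powers modulo `r` (`ae_norm_int_sub_pow_dvd`, `ae_absNorm_span_eq_pow`).
-/

open NumberField Polynomial

namespace Fermat.Agent.S14

set_option linter.style.haveILetI false
set_option linter.unusedSectionVars false

open scoped Pointwise

section Generic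

variable {F E : Type*} [Field F] [NumberField F] [Field E] [NumberField E] [Algebra F E]

/-- If the Galois group acts trivially modulo a nonzero prime `N`, the residue degree is one. -/
theorem ae_inertiaDeg_eq_one [IsGalois F E] (N : Ideal (𝓞 E)) [hN : N.IsPrime] (hN0 : N ≠ ⊥)
    (h : ∀ (τ : Gal(E/F)) (y : 𝓞 E), τ • y - y ∈ N) : N.inertiaDeg (𝓞 F) = 1 := by
  have htop : N.inertia Gal(E/F) = ⊤ := by
    rw [eq_top_iff]
    intro τ _
    exact h τ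
  have hp0 : N.under (𝓞 F) ≠ ⊥ := by
    intro h0
    apply hN0
    exact Ideal.eq_bot_of_comap_eq_bot h0
  have key := Ideal.ncard_primesOver_mul_card_inertia_mul_finrank (G := Gal(E/F))
    (N.under (𝓞 F)) N
  rw [htop, Subgroup.card_top, mul_assoc, mul_comm, mul_assoc] at key
  have hpos : 0 < Nat.card Gal(E/F) := Nat.card_pos
  have := Nat.eq_of_mul_eq_mul_left hpos (key.trans (mul_one _).symm)
  exact Nat.eq_one_of_mul_eq_one_right this

/-- Residue degree one: every class modulo `N` is represented by an element of `𝓞 F`. -/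
theorem ae_exists_sub_mem_of_inertiaDeg_eq_one (N : Ideal (𝓞 E)) [hN : N.IsPrime] (hN0 : N ≠ ⊥)
    (h : N.inertiaDeg (𝓞 F) = 1) (y : 𝓞 E) : ∃ a : 𝓞 F, y - algebraMap (𝓞 F) (𝓞 E) a ∈ N := by
  have hq0 : N.under (𝓞 F) ≠ ⊥ := by
    intro h0
    apply hN0
    exact Ideal.eq_bot_of_comap_eq_bot h0
  haveI := am_isMaximal hq0
  haveI := am_isMaximal hN0
  haveI : Finite (𝓞 F ⧸ N.under (𝓞 F)) := am_finite_quotient F hq0
  haveI : Finite (𝓞 E ⧸ N) := am_finite_quotient E hN0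
  have hcard := am_natCard_quotient (N.under (𝓞 F)) hq0 N
  rw [h, pow_one] at hcard
  letI : Field (𝓞 F ⧸ N.under (𝓞 F)) := Ideal.Quotient.field _
  have hinj : Function.Injective (algebraMap (𝓞 F ⧸ N.under (𝓞 F)) (𝓞 E ⧸ N)) :=
    (algebraMap (𝓞 F ⧸ N.under (𝓞 F)) (𝓞 E ⧸ N)).injective
  have hbij : Function.Bijective (algebraMap (𝓞 F ⧸ N.under (𝓞 F)) (𝓞 E ⧸ N)) := by
    rw [Nat.bijective_iff_injective_and_card]
    exact ⟨hinj, hcard.symm⟩
  obtain ⟨a', ha'⟩ := hbij.2 (Ideal.Quotient.mk N y)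
  obtain ⟨a, rfl⟩ := Ideal.Quotient.mk_surjective a'
  refine ⟨a, ?_⟩
  rw [← Ideal.Quotient.eq, ← ha']
  rfl

/-- The relative norm of an integer as a product over the Galois group. -/
theorem ae_algebraMap_intNorm [IsGalois F E] (y : 𝓞 E) :
    algebraMap (𝓞 F) (𝓞 E) (Algebra.intNorm (𝓞 F) (𝓞 E) y) = ∏ τ : Gal(E/F), τ • y := by
  apply RingOfIntegers.ext
  have h1 : ((algebraMap (𝓞 F) (𝓞 E) (Algebra.intNorm (𝓞 F) (𝓞 E) y) : 𝓞 E) : E) =
      algebraMap F E (algebraMap (𝓞 F) F (Algebra.intNorm (𝓞 F) (𝓞 E) y)) := rfl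
  rw [h1, Algebra.algebraMap_intNorm (K := F) (L := E), Algebra.norm_eq_prod_automorphisms]
  rw [RingOfIntegers.coe_eq_algebraMap, map_prod]
  rfl

/-- If `Gal(E/F)` acts trivially modulo the nonzero prime `N`, the relative norm of any integer of
`E` is a `[E:F]`-th power modulo `N ∩ 𝓞 F`. -/
theorem ae_intNorm_sub_pow_mem [IsGalois F E] (N : Ideal (𝓞 E)) [hN : N.IsPrime] (hN0 : N ≠ ⊥)
    (h : ∀ (τ : Gal(E/F)) (y : 𝓞 E), τ • y - y ∈ N) (y : 𝓞 E) :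
    ∃ a : 𝓞 F, Algebra.intNorm (𝓞 F) (𝓞 E) y - a ^ Module.finrank F E ∈ N.under (𝓞 F) := by
  obtain ⟨a, ha⟩ := ae_exists_sub_mem_of_inertiaDeg_eq_one N hN0 (ae_inertiaDeg_eq_one N hN0 h) y
  refine ⟨a, ?_⟩
  rw [Ideal.under_def, Ideal.mem_comap, map_sub, map_pow, ae_algebraMap_intNorm,
    ← Ideal.Quotient.eq, map_prod, map_pow]
  have h2 : ∀ τ : Gal(E/F), Ideal.Quotient.mk N (τ • y) = Ideal.Quotient.mk N y := fun τ =>
    Ideal.Quotient.eq.mpr (h τ y)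
  simp_rw [h2]
  rw [Finset.prod_const, Finset.card_univ, ← Nat.card_eq_fintype_card,
    IsGalois.card_aut_eq_finrank, Ideal.Quotient.eq.mpr ha]

end Generic

section Descent

variable {F : Type*} [Field F] [NumberField F] {r : ℕ} [hr : Fact r.Prime]

/-- Modulo a prime of norm `r`, every integer of `F` is congruent to a rational integer. -/
theorem ae_exists_int_sub_mem (P : Ideal (𝓞 F)) (hP : Ideal.absNorm P = r) (a : 𝓞 F) :
    ∃ c : ℤ, a - (c : 𝓞 F) ∈ P := by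
  have hcard : Nat.card (𝓞 F ⧸ P) = r := by
    rw [← hP]; rfl
  haveI : Fact (Nat.card (𝓞 F ⧸ P)).Prime := ⟨hcard ▸ hr.out⟩
  haveI : Finite (𝓞 F ⧸ P) := Nat.finite_of_card_ne_zero (by rw [hcard]; exact hr.out.ne_zero)
  haveI : Nontrivial (𝓞 F ⧸ P) := by
    rw [← Finite.one_lt_card_iff_nontrivial, hcard]
    exact hr.out.one_lt
  let φ : ℤ →+* (𝓞 F ⧸ P) := Int.castRingHom _
  have h1 : φ.range.toAddSubgroup = ⊥ ∨ φ.range.toAddSubgroup = ⊤ :=
    AddSubgroup.eq_bot_or_eq_top_of_prime_card _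
  have h2 : φ.range.toAddSubgroup ≠ ⊥ := by
    intro h
    have h3 : (1 : 𝓞 F ⧸ P) ∈ φ.range.toAddSubgroup := ⟨1, by simp [φ]⟩
    rw [h, AddSubgroup.mem_bot] at h3
    exact one_ne_zero h3
  have h4 : Ideal.Quotient.mk P a ∈ φ.range.toAddSubgroup := by
    rw [h1.resolve_left h2]; exact AddSubgroup.mem_top _
  obtain ⟨c, hc⟩ := h4
  refine ⟨c, ?_⟩
  rw [← Ideal.Quotient.eq, ← hc]
  simp [φ]

/-- The absolute norm of an integer of a Galois number field as a product over the Galois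
group. -/
theorem ae_intCast_norm [IsGalois ℚ F] (β : 𝓞 F) :
    ((Algebra.norm ℤ β : ℤ) : 𝓞 F) = ∏ σ : Gal(F/ℚ), σ • β := by
  apply RingOfIntegers.ext
  have h1 : (((Algebra.norm ℤ β : ℤ) : 𝓞 F) : F) = algebraMap ℚ F ((Algebra.norm ℤ β : ℤ) : ℚ) := by
    simp
  rw [h1, Algebra.coe_norm_int, Algebra.norm_eq_prod_automorphisms,
    RingOfIntegers.coe_eq_algebraMap (∏ σ : Gal(F/ℚ), σ • β), map_prod]
  rfl

/-- If `β ∈ 𝓞 F` is a `p`-th power modulo every prime of `F` above `r`, all of which have norm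
`r`, then its absolute norm is a `p`-th power modulo `r` (`F/ℚ` Galois). -/
theorem ae_norm_sub_pow_dvd [IsGalois ℚ F]
    (hdeg : ∀ P : Ideal (𝓞 F), P.IsPrime → (r : 𝓞 F) ∈ P → Ideal.absNorm P = r)
    (p : ℕ) (β : 𝓞 F)
    (hβ : ∀ P : Ideal (𝓞 F), P.IsPrime → (r : 𝓞 F) ∈ P → ∃ a : 𝓞 F, β - a ^ p ∈ P) :
    ∃ b : ℤ, (r : ℤ) ∣ Algebra.norm ℤ β - b ^ p := by
  classical
  obtain ⟨P0, hP0, hrP0⟩ := ae_exists_prime_mem F r
  have hN0 := hdeg P0 hP0 hrP0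
  -- for each `σ`, an integer `c σ` with `σ • β ≡ (c σ) ^ p mod P0`
  have hc : ∀ σ : Gal(F/ℚ), ∃ c : ℤ, σ • β - (c : 𝓞 F) ^ p ∈ P0 := by
    intro σ
    have hprime : (σ⁻¹ • P0).IsPrime := inferInstance
    have hmem : (r : 𝓞 F) ∈ σ⁻¹ • P0 := by
      rw [Ideal.mem_inv_pointwise_smul_iff,
        show σ • (r : 𝓞 F) = (r : 𝓞 F) from
          map_natCast (MulSemiringAction.toRingHom Gal(F/ℚ) (𝓞 F) σ) r]
      exact hrP0
    obtain ⟨a, ha⟩ := hβ _ hprime hmem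
    rw [Ideal.mem_inv_pointwise_smul_iff, smul_sub, smul_pow'] at ha
    obtain ⟨c, hc⟩ := ae_exists_int_sub_mem P0 hN0 (σ • a)
    refine ⟨c, ?_⟩
    have h1 : (σ • a) ^ p - (c : 𝓞 F) ^ p ∈ P0 := by
      rw [← Ideal.Quotient.eq] at hc ⊢
      rw [map_pow, map_pow, hc]
    have := add_mem ha h1
    simpa using this
  choose c hc using hc
  refine ⟨∏ σ : Gal(F/ℚ), c σ, ?_⟩
  haveI := ae_liesOver_span P0 hrP0
  have h2 : (Algebra.norm ℤ β - (∏ σ : Gal(F/ℚ), c σ) ^ p : ℤ) ∈ P0.under ℤ := by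
    rw [Ideal.under_def, Ideal.mem_comap]
    have h3 : algebraMap ℤ (𝓞 F) (Algebra.norm ℤ β - (∏ σ : Gal(F/ℚ), c σ) ^ p) =
        (∏ σ : Gal(F/ℚ), σ • β) - ∏ σ : Gal(F/ℚ), (c σ : 𝓞 F) ^ p := by
      rw [← ae_intCast_norm, Finset.prod_pow]
      simp
    rw [h3, ← Ideal.Quotient.eq, map_prod, map_prod]
    apply Finset.prod_congr rfl
    intro σ _
    exact Ideal.Quotient.eq.mpr (hc σ)
  rw [← (Ideal.LiesOver.over (p := Ideal.span {(r : ℤ)}) (P := P0)), Ideal.mem_span_singleton] at h2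
  exact h2

end Descent

section TotRam

variable {F K E Ω : Type*} [Field F] [NumberField F] [Field K] [NumberField K]
  [Field E] [NumberField E] [Field Ω] [NumberField Ω]
  [Algebra F E] [Algebra K Ω] [Algebra E Ω]
  {r : ℕ} [hr : Fact r.Prime] [IsCyclotomicExtension {r} K Ω]

/-- If every `F`-automorphism of `E` is induced by a `K`-automorphism of `Ω = K(ζ_r)` (i.e.
`E ∩ K = F`) and `r` is unramified in `K`, then `Gal(E/F)` acts trivially modulo every prime of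
`E` above `r`. -/
theorem ae_gal_smul_sub_mem [IsGalois F E]
    (hunr : ∀ Q : Ideal (𝓞 K), Q.IsPrime → (r : 𝓞 K) ∈ Q → Q.ramificationIdx ℤ = 1)
    (hres : ∀ τ : Gal(E/F), ∃ σ : Gal(Ω/K), ∀ y : E, algebraMap E Ω (τ y) = σ (algebraMap E Ω y))
    (N : Ideal (𝓞 E)) [hN : N.IsPrime] (hrN : (r : 𝓞 E) ∈ N) (τ : Gal(E/F)) (y : 𝓞 E) :
    τ • y - y ∈ N := by
  haveI : IsGalois K Ω := IsCyclotomicExtension.isGalois {r} K Ω
  obtain ⟨⟨P, hP1, hP2⟩⟩ := N.nonempty_primesOver (S := 𝓞 Ω)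
  have hrP : (r : 𝓞 Ω) ∈ P := by
    have : algebraMap (𝓞 E) (𝓞 Ω) (r : 𝓞 E) ∈ P := by
      rw [← Ideal.mem_comap, ← Ideal.under_def, ← hP2.over]
      exact hrN
    simpa using this
  obtain ⟨σ, hσ⟩ := hres τ
  have h1 := ae_smul_sub_mem_of_unram hunr P hrP σ (algebraMap (𝓞 E) (𝓞 Ω) y)
  have h2 : algebraMap (𝓞 E) (𝓞 Ω) (τ • y - y) =
      σ • (algebraMap (𝓞 E) (𝓞 Ω) y) - algebraMap (𝓞 E) (𝓞 Ω) y := by
    rw [map_sub]
    congr 1
    apply RingOfIntegers.ext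
    exact hσ (y : E)
  rw [hP2.over, Ideal.under_def, Ideal.mem_comap, h2]
  exact h1

/-- **Norms from a totally ramified layer are `[E:F]`-th powers modulo `r`.** -/
theorem ae_norm_int_sub_pow_dvd [IsGalois ℚ F] [IsGalois F E]
    (hunr : ∀ Q : Ideal (𝓞 K), Q.IsPrime → (r : 𝓞 K) ∈ Q → Q.ramificationIdx ℤ = 1)
    (hres : ∀ τ : Gal(E/F), ∃ σ : Gal(Ω/K), ∀ y : E, algebraMap E Ω (τ y) = σ (algebraMap E Ω y))
    (hdeg : ∀ P : Ideal (𝓞 F), P.IsPrime → (r : 𝓞 F) ∈ P → Ideal.absNorm P = r)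
    (δ : 𝓞 E) : ∃ b : ℤ, (r : ℤ) ∣ Algebra.norm ℤ δ - b ^ Module.finrank F E := by
  have hnorm : Algebra.norm ℤ δ = Algebra.norm ℤ (Algebra.intNorm (𝓞 F) (𝓞 E) δ) := by
    rw [← Algebra.intNorm_eq_norm ℤ (𝓞 E), ← Algebra.intNorm_eq_norm ℤ (𝓞 F),
      Algebra.intNorm_intNorm]
  rw [hnorm]
  apply ae_norm_sub_pow_dvd hdeg
  intro P hP hrP
  obtain ⟨⟨N, hN1, hN2⟩⟩ := P.nonempty_primesOver (S := 𝓞 E)
  have hrN : (r : 𝓞 E) ∈ N := by
    have : algebraMap (𝓞 F) (𝓞 E) (r : 𝓞 F) ∈ N := by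
      rw [← Ideal.mem_comap, ← Ideal.under_def, ← hN2.over]
      exact hrP
    simpa using this
  have hN0 : N ≠ ⊥ := ae_ne_bot_of_mem N hrN
  obtain ⟨a, ha⟩ := ae_intNorm_sub_pow_mem N hN0 (ae_gal_smul_sub_mem hunr hres N hrN) δ
  rw [← hN2.over] at ha
  exact ⟨a, ha⟩

/-- **Absolute norms of principal ideals of a layer `E/F` totally ramified above `r` are
`[E:F]`-th powers modulo `r`** (`[E:F]` odd, so the sign is irrelevant). -/
theorem ae_absNorm_span_eq_pow [IsGalois ℚ F] [IsGalois F E]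
    (hunr : ∀ Q : Ideal (𝓞 K), Q.IsPrime → (r : 𝓞 K) ∈ Q → Q.ramificationIdx ℤ = 1)
    (hres : ∀ τ : Gal(E/F), ∃ σ : Gal(Ω/K), ∀ y : E, algebraMap E Ω (τ y) = σ (algebraMap E Ω y))
    (hdeg : ∀ P : Ideal (𝓞 F), P.IsPrime → (r : 𝓞 F) ∈ P → Ideal.absNorm P = r)
    (hodd : Odd (Module.finrank F E)) (δ : 𝓞 E) :
    ∃ c : ZMod r, ((Ideal.absNorm (Ideal.span {δ}) : ℕ) : ZMod r) = c ^ Module.finrank F E := by
  obtain ⟨b, hb⟩ := ae_norm_int_sub_pow_dvd hunr hres hdeg δ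
  have h1 : ((Algebra.norm ℤ δ : ℤ) : ZMod r) = (b : ZMod r) ^ Module.finrank F E := by
    have := (ZMod.intCast_zmod_eq_zero_iff_dvd _ r).mpr hb
    rw [Int.cast_sub, sub_eq_zero] at this
    rw [this]; simp
  rw [Ideal.absNorm_span_singleton]
  rcases Int.natAbs_eq (Algebra.norm ℤ δ) with h | h
  · refine ⟨b, ?_⟩
    rw [← h1]
    conv_rhs => rw [h]
    simp
  · refine ⟨-b, ?_⟩
    rw [hodd.neg_pow, ← h1]
    conv_rhs => rw [h]
    simp

end TotRam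

end Fermat.Agent.S14
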